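import Fermat.Agent.DeligneSerre.WeightTwo.EisensteinOne
import Fermat.Agent.Modular.QExp

/-!
# A weight one form on `Γ₁(N)` with rational `q`-expansion

`eisE N t = zetaT (N t) t - 1/N`.
-/

set_option autoImplicit false

noncomputable section

open Complex Filter
open UpperHalfPlane hiding I
open scoped MatrixGroups ModularForm Manifold

namespace Fermat.Agent.DeligneSerre

open Fermat.Agent.Modular (HasQExp)

variable (N : ℕ) [NeZero N]

/-- `t ↦ zetaT (N t) t - 1/N`. -/
def eisE : ℍ → ℂ := zv ![(1 : ZMod N), 0] ∣[(1 : ℤ)] ModularForm.heckeDiagMatrix N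

theorem eisE_slash {γ : SL(2, ℤ)} (hγ : γ ∈ CongruenceSubgroup.Gamma1 N) :
    eisE N ∣[(1 : ℤ)] γ = eisE N := by
  obtain ⟨h00, -, h10⟩ := (CongruenceSubgroup.Gamma1_mem N γ).1 hγ
  rw [eisE, ModularForm.SL_slash, zvDiag_slash (CongruenceSubgroup.Gamma0_mem.2 h10), h00, mul_one]

theorem mdifferentiable_eisE : MDiff (eisE N) := (mdifferentiable_zv _).slash 1 _

theorem isBoundedAtImInfty_eisE_slash (g : SL(2, ℤ)) :
    IsBoundedAtImInfty (eisE N ∣[(1 : ℤ)] g) :=
  isBoundedAtImInfty_zvDiag_slash _ g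

/-- `[n ≡ 1] - [n ≡ -1]`. -/
def eisESign (n : ℕ) : ℚ :=
  (if (n : ZMod N) = 1 then 1 else 0) - if (n : ZMod N) = -1 then 1 else 0

omit [NeZero N] in
theorem norm_eisESign_le (n : ℕ) : ‖(eisESign N n : ℂ)‖ ≤ 1 := by
  unfold eisESign
  split_ifs <;> simp

/-- The expansion of `eisE N`. -/
def eisESeries : PowerSeries ℚ :=
  PowerSeries.mk fun n => if n = 0 then 1 / 2 - 1 / (N : ℚ) else ∑ d ∈ n.divisors, eisESign N d

variable {N}

theorem eisE_eq (hN : 3 ≤ N) (t : ℍ) :
    eisE N t = 1 / 2 - 1 / (N : ℂ) +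
      ∑' n : ℕ, (eisESign N n : ℂ) * lamF (expTwoPiI t ^ n) := by
  set q := expTwoPiI (t : ℂ) with hqd
  have hq : ‖q‖ < 1 := norm_expTwoPiI_lt_one t.im_pos
  have hN0 : (N : ℂ) ≠ 0 := by exact_mod_cast NeZero.ne N
  haveI : Fact (1 < N) := ⟨by omega⟩
  have h1 : (1 : ZMod N).val = 1 := ZMod.val_one N
  have hm1 : (-1 : ZMod N).val = N - 1 := by
    rw [ZMod.neg_val, if_neg one_ne_zero, h1]
  have hne : (1 : ZMod N) ≠ -1 := fun h => by
    have := congrArg ZMod.val h
    rw [h1, hm1] at this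
    omega
  have hval : eisE N t = zetaT ((N : ℂ) * t) t - 1 / (N : ℂ) := by
    rw [eisE, ModularForm.slash_heckeDiagMatrix_apply 1 (NeZero.ne N), sub_self, zpow_zero, one_mul,
      zv, ModularForm.coe_heckeDiagMatrix_smul (NeZero.ne N)]
    simp only [Matrix.cons_val_zero, Matrix.cons_val_one, frc, h1, ZMod.val_zero, Nat.cast_zero,
      zero_div, Complex.ofReal_zero, add_zero]
    push_cast
    congr 2
    field_simp
  have hq1 : q ≠ 1 := fun h => by rw [h, norm_one] at hq; exact hq.false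
  have hL : lamH q = 1 / 2 + lamF q := by
    have : 1 - q ≠ 0 := sub_ne_zero.2 (Ne.symm hq1)
    rw [lamH, lamF]
    field_simp
    ring
  have e : ∀ m : ℕ, zetaTerm ((N : ℂ) * t) t m =
      lamF (q ^ ((1 : ZMod N).val + N * (m + 1))) - lamF (q ^ ((-1 : ZMod N).val + N * m)) := by
    intro m
    rw [zetaTerm, hqd, ← expTwoPiI_nat_mul, ← expTwoPiI_nat_mul, h1, hm1]
    congr 3
    · push_cast; ring
    · push_cast [show 1 ≤ N by omega]; ring
  have hsb : ∀ b : ZMod N, Summable fun m : ℕ => lamF (q ^ (b.val + N * m)) := by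
    intro b
    refine (summable_nat_add_iff 1).1 (Summable.of_norm_bounded
      ((summable_geometric_of_lt_one (norm_nonneg q) hq).mul_left (1 / (1 - ‖q‖))) fun m => ?_)
    have h2 : m ≤ b.val + N * (m + 1) := by nlinarith
    refine (norm_lamF_le (ρ := ‖q‖) ?_ hq).trans ?_
    · rw [norm_pow]; exact pow_le_of_le_one (norm_nonneg _) hq.le (by nlinarith)
    · rw [norm_pow, div_eq_inv_mul, one_div]
      exact mul_le_mul_of_nonneg_left (pow_le_pow_of_le_one (norm_nonneg _) hq.le h2)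
        (inv_nonneg.2 (by linarith))
  have hs : Summable fun n : ℕ => (eisESign N n : ℂ) * lamF (q ^ n) := by
    refine Summable.of_norm_bounded_eventually_nat
      ((summable_geometric_of_lt_one (norm_nonneg q) hq).mul_left (1 / (1 - ‖q‖))) ?_
    filter_upwards [eventually_ge_atTop 1] with n hn
    have h2 : ‖q ^ n‖ ≤ ‖q‖ := by
      rw [norm_pow]; exact pow_le_of_le_one (norm_nonneg _) hq.le (by omega)
    rw [norm_mul]
    refine (mul_le_mul (norm_eisESign_le N n) (norm_lamF_le h2 hq) (norm_nonneg _)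
      zero_le_one).trans (le_of_eq ?_)
    rw [norm_pow]; ring
  have hcl := Nat.sumByResidueClasses hs N
  simp only [eisESign, Nat.cast_add, ZMod.natCast_zmod_val, Nat.cast_mul, ZMod.natCast_self,
    zero_mul, add_zero, Rat.cast_sub, apply_ite (Rat.cast : ℚ → ℂ), Rat.cast_one, Rat.cast_zero,
    sub_mul, ite_mul, one_mul, zero_mul] at hcl
  have hcl' : ∑' n : ℕ, (eisESign N n : ℂ) * lamF (q ^ n) =
      (∑' m : ℕ, lamF (q ^ ((1 : ZMod N).val + N * m))) -
        ∑' m : ℕ, lamF (q ^ ((-1 : ZMod N).val + N * m)) := by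
    simp only [eisESign, Rat.cast_sub, apply_ite (Rat.cast : ℚ → ℂ), Rat.cast_one, Rat.cast_zero,
      sub_mul, ite_mul, one_mul, zero_mul]
    rw [hcl, ← Finset.sum_subset (Finset.subset_univ {(1 : ZMod N), -1}), Finset.sum_pair hne]
    · simp [hne, Ne.symm hne, tsum_neg, sub_eq_add_neg]
    · intro a _ ha
      simp only [Finset.mem_insert, Finset.mem_singleton, not_or] at ha
      simp [ha.1, ha.2]
  have hsa : Summable fun m : ℕ => lamF (q ^ ((1 : ZMod N).val + N * (m + 1))) :=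
    (summable_nat_add_iff 1).2 (hsb 1)
  rw [hval, zetaT, ← hqd, hL, tsum_congr e, hsa.tsum_sub (hsb (-1)), hcl',
    (hsb 1).tsum_eq_zero_add]
  rw [show (1 : ZMod N).val + N * 0 = 1 by rw [h1]; ring, pow_one]
  ring

theorem hasQExp_eisE (hN : 3 ≤ N) :
    HasQExp 1 (eisE N)
      (HahnSeries.ofPowerSeries ℤ ℂ (PowerSeries.map (algebraMap ℚ ℂ) (eisESeries N))) := by
  refine HasQExp.ofPowerSeries fun t => ?_
  have hqq : Function.Periodic.qParam 1 (t : ℂ) = expTwoPiI (t : ℂ) := by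
    simp [Function.Periodic.qParam, expTwoPiI]
  rw [hqq]
  set q := expTwoPiI (t : ℂ) with hqd
  have hq : ‖q‖ < 1 := norm_expTwoPiI_lt_one t.im_pos
  have hs : Summable fun n : ℕ => (eisESign N n : ℂ) * lamF (q ^ n) := by
    refine Summable.of_norm_bounded_eventually_nat
      ((summable_geometric_of_lt_one (norm_nonneg q) hq).mul_left (1 / (1 - ‖q‖))) ?_
    filter_upwards [eventually_ge_atTop 1] with n hn
    have h2 : ‖q ^ n‖ ≤ ‖q‖ := by
      rw [norm_pow]; exact pow_le_of_le_one (norm_nonneg _) hq.le (by omega)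
    rw [norm_mul]
    refine (mul_le_mul (norm_eisESign_le N n) (norm_lamF_le h2 hq) (norm_nonneg _)
      zero_le_one).trans (le_of_eq ?_)
    rw [norm_pow]; ring
  have e : ∑' n : ℕ+, (eisESign N n : ℂ) * lamF (q ^ (n : ℕ)) =
      ∑' n : ℕ, (eisESign N n : ℂ) * lamF (q ^ n) := by
    rw [← tsum_zero_pnat_eq_tsum_nat hs, show lamF (q ^ 0) = 0 by simp [lamF], mul_zero, zero_add]
  have hpos := hasSum_lambert hq (fun n => (eisESign N n : ℂ)) (norm_eisESign_le N)
  rw [e] at hpos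
  set f : ℕ → ℂ := fun k => (PowerSeries.map (algebraMap ℚ ℂ) (eisESeries N)).coeff k * q ^ k
    with hf
  have hsucc : HasSum (fun k : ℕ => f (k + 1))
      (∑' n : ℕ, (eisESign N n : ℂ) * lamF (q ^ n)) := by
    have := (Equiv.pnatEquivNat.symm.hasSum_iff).2 hpos
    simpa [hf, eisESeries, Function.comp_def] using this
  have := (hasSum_nat_add_iff (f := f) 1).1 hsucc
  have h0 : (∑ i ∈ Finset.range 1, f i) = 1 / 2 - 1 / (N : ℂ) := by simp [hf, eisESeries]
  rw [h0, add_comm, ← eisE_eq hN t] at this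
  exact this

theorem eisESeries_constantCoeff_ne_zero (hN : 3 ≤ N) :
    PowerSeries.constantCoeff (eisESeries N) ≠ 0 := by
  rw [← PowerSeries.coeff_zero_eq_constantCoeff_apply, eisESeries, PowerSeries.coeff_mk, if_pos rfl,
    sub_ne_zero]
  intro h
  have hN' : (N : ℚ) ≠ 0 := by exact_mod_cast NeZero.ne N
  field_simp at h
  have : N = 2 := by exact_mod_cast h
  omega

end Fermat.Agent.DeligneSerre
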