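import Fermat.Agent.DeligneSerre.WeightOne.NormPoly
import Fermat.Agent.DeligneSerre.WeightOne.EisRat
import Fermat.Agent.DeligneSerre.XOne.DiamondC
import Fermat.Agent.Modular.DiffToForms

/-!
# The conjugate of a weight one cusp form

`f E¹¹ / Δ` lies in `ℚ`-rational function field of `X₁(N)` tensored with `ℂ`, so the conjugate
`q`-series is that of a meromorphic form; the norm polynomial shows that it is a cusp form.
-/

set_option autoImplicit false

noncomputable section

open UpperHalfPlane CongruenceSubgroup Filter ModularCurve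
open scoped MatrixGroups ModularForm Manifold Topology

namespace Fermat.Agent.DeligneSerre

open Fermat.Agent.Modular

theorem tendsto_zero_of_relation {ι : Type*} {L : Filter ι} {z : ι → ℂ} {c : ℕ → ι → ℂ} {d : ℕ}
    (h0 : ∀ x, c 0 x = 1) (hc : ∀ j, 0 < j → Tendsto (c j) L (𝓝 0))
    (hrel : ∀ x, ∑ j ∈ Finset.range (d + 1), c j x * z x ^ (d - j) = 0) : Tendsto z L (𝓝 0) := by
  rw [Metric.tendsto_nhds]
  intro e he
  have hs : Tendsto (fun x => ∑ j ∈ Finset.range d, ‖c (j + 1) x‖ / e ^ (j + 1)) L (𝓝 0) := by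
    have := tendsto_finsetSum (Finset.range d) fun j _ =>
      ((hc (j + 1) j.succ_pos).norm.div_const (e ^ (j + 1)))
    simpa using this
  filter_upwards [hs.eventually (gt_mem_nhds one_pos)] with x hx
  rw [dist_zero_right]
  by_contra hlt
  rw [not_lt] at hlt
  have hz : 0 < ‖z x‖ := lt_of_lt_of_le he hlt
  have h := hrel x
  rw [Finset.sum_range_succ', h0, one_mul, Nat.sub_zero, add_eq_zero_iff_eq_neg] at h
  have h2 : ‖z x‖ ^ d ≤ ∑ j ∈ Finset.range d, ‖c (j + 1) x‖ * ‖z x‖ ^ (d - (j + 1)) := by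
    have := congrArg norm h
    rw [norm_neg, norm_pow] at this
    rw [← this]
    refine (norm_sum_le _ _).trans (le_of_eq (Finset.sum_congr rfl fun j _ => ?_))
    rw [norm_mul, norm_pow]
  have h3 : ∑ j ∈ Finset.range d, ‖c (j + 1) x‖ * ‖z x‖ ^ (d - (j + 1)) ≤
      ‖z x‖ ^ d * ∑ j ∈ Finset.range d, ‖c (j + 1) x‖ / e ^ (j + 1) := by
    rw [Finset.mul_sum]
    refine Finset.sum_le_sum fun j hj => ?_
    rw [Finset.mem_range] at hj
    have hp : ‖z x‖ ^ d = ‖z x‖ ^ (d - (j + 1)) * ‖z x‖ ^ (j + 1) := by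
      rw [← pow_add, Nat.sub_add_cancel hj]
    have hej : e ^ (j + 1) ≤ ‖z x‖ ^ (j + 1) := pow_le_pow_left₀ he.le hlt _
    rw [hp, mul_div, le_div_iff₀ (pow_pos he _)]
    calc ‖c (j + 1) x‖ * ‖z x‖ ^ (d - (j + 1)) * e ^ (j + 1)
        ≤ ‖c (j + 1) x‖ * ‖z x‖ ^ (d - (j + 1)) * ‖z x‖ ^ (j + 1) :=
          mul_le_mul_of_nonneg_left hej (by positivity)
      _ = _ := by ring
  have h4 : ‖z x‖ ^ d ≤ ‖z x‖ ^ d * ∑ j ∈ Finset.range d, ‖c (j + 1) x‖ / e ^ (j + 1) := h2.trans h3
  have h5 : (0 : ℝ) < ‖z x‖ ^ d := pow_pos hz d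
  nlinarith

theorem ordVal_le_one_of_relation {G : Mero} {C : ℕ → Hol} {d : ℕ} (hd : 0 < d) (hC0 : C 0 = 1)
    (h : ∑ j ∈ Finset.range (d + 1), algebraMap Hol Mero (C j) * (G ^ 12) ^ (d - j) = 0)
    (z : ℍ) : ordVal z G ≤ 1 := by
  by_contra hG
  rw [not_le] at hG
  rw [Finset.sum_range_succ', hC0, map_one, one_mul, Nat.sub_zero, add_eq_zero_iff_eq_neg] at h
  have hC : ∀ j, ordVal z (algebraMap Hol Mero (C j)) ≤ 1 := fun j => by
    rcases eq_or_ne (C j) 0 with e | e
    · simp [e]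
    · rw [ordVal_algebraMap, holVal_apply e, ← WithZero.exp_zero, WithZero.exp_le_exp]; omega
  have h12 : 1 < ordVal z G ^ 12 := one_lt_pow₀ hG (by norm_num)
  have hle : ordVal z ((G ^ 12) ^ d) ≤ (ordVal z G ^ 12) ^ (d - 1) := by
    rw [← Valuation.map_neg, ← h]
    refine Valuation.map_sum_le _ fun j hj => ?_
    rw [map_mul, map_pow, map_pow]
    refine (mul_le_of_le_one_left zero_le (hC _)).trans ?_
    exact pow_le_pow_right₀ h12.le (by omega)
  rw [map_pow, map_pow] at hle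
  exact absurd hle (not_le.mpr (pow_lt_pow_right₀ h12 (by omega)))

variable {N : ℕ} [NeZero N]

theorem three_le_of_cuspForm_ne_zero (f : CuspForm (Gamma1 N) 1) (hf : ⇑f ≠ 0) : 3 ≤ N := by
  by_contra hlt
  have hN : (2 : ZMod N) = 0 := by
    rcases (show N = 1 ∨ N = 2 by have := NeZero.pos N; omega) with rfl | rfl <;> decide
  have hm : (-1 : SL(2, ℤ)) ∈ Gamma1 N := by
    rw [Gamma1_mem]
    simp only [Matrix.SpecialLinearGroup.coe_neg, Matrix.SpecialLinearGroup.coe_one,
      Matrix.neg_apply, Matrix.one_apply_eq, Int.cast_neg, Int.cast_one,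
      Matrix.one_apply_ne (show (1 : Fin 2) ≠ 0 by decide), neg_zero, Int.cast_zero, and_true,
      and_self]
    linear_combination -hN
  have h : ⇑f ∣[(1 : ℤ)] (-1 : SL(2, ℤ)) = ⇑f :=
    SlashInvariantFormClass.slash_action_eq f _ (Subgroup.mem_map_of_mem _ hm)
  refine hf (funext fun τ => ?_)
  have hτ := congrFun h τ
  rw [ModularForm.SL_slash_apply] at hτ
  simp [UpperHalfPlane.denom] at hτ
  rw [Pi.zero_apply]
  linear_combination -hτ / 2

/-- The conjugate of a weight one cusp form on `Γ₁(N)`. -/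
theorem exists_conjugate_cuspForm (f : CuspForm (Gamma1 N) 1) (hf : ⇑f ≠ 0) (τ : ℂ ≃+* ℂ) :
    ∃ g : CuspForm (Gamma1 N) 1,
      ∀ n, ModularFormClass.qCoeff g n = τ (ModularFormClass.qCoeff f n) := by
  classical
  have hN := three_le_of_cuspForm_ne_zero f hf
  have : Fact (3 ≤ N) := ⟨hN⟩
  have hΓ : (1 : ℝ) ∈ (Gamma1 N : Subgroup (GL (Fin 2) ℝ)).strictPeriods := by simp
  -- the series
  set σ : ℂ ≃ₐ[ℚ] ℂ := AlgEquiv.ofRingEquiv (f := τ) (fun x => by simp) with hσdef
  set s : ℂ →+* ℂ := (σ : ℂ →+* ℂ) with hsdef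
  have hs : ∀ x, s x = τ x := fun x => rfl
  set F : LaurentSeries ℂ := qSer f with hFdef
  set E : LaurentSeries ℂ :=
    HahnSeries.ofPowerSeries ℤ ℂ (PowerSeries.map (algebraMap ℚ ℂ) (eisESeries N)) with hEdef
  set D : LaurentSeries ℂ :=
    HahnSeries.single 1 1 * intSeriesC ModularCurve.dedekindEtaUnit with hDdef
  have hFq : HasQExp 1 ⇑f F := hasQExp_qSer f hΓ
  have hEq : HasQExp 1 (eisE N) E := hasQExp_eisE hN
  have hDq : HasQExp 1 ModularForm.discriminant D := hasQExp_discriminant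
  have hsE : coeffMap s E = E := by
    ext n
    rw [coeffMap_coeff, hEdef]
    rcases lt_or_ge n 0 with h | h
    · rw [ofPowerSeries_coeff_of_neg _ h, map_zero]
    · lift n to ℕ using h
      rw [HahnSeries.ofPowerSeries_apply_coeff, PowerSeries.coeff_map]
      exact σ.commutes _
  have hsD : coeffMap s D = D := by
    rw [hDdef, map_mul, coeffMap_single, map_one, coeffMap_intSeriesC]
  -- holomorphic functions
  let fH : Hol := ⟨⇑f, CuspFormClass.holo f⟩
  let eH : Hol := ⟨eisE N, mdifferentiable_eisE N⟩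
  let dH : Hol := ⟨ModularForm.discriminant, hDq.mdifferentiable one_pos⟩
  let φH : Hol := ⟨(⇑f * eisE N ^ 11) / ModularForm.discriminant, by
    rw [mem_hol, UpperHalfPlane.mdifferentiable_iff]
    have h1 := UpperHalfPlane.mdifferentiable_iff.mp
      ((CuspFormClass.holo f).mul ((mdifferentiable_eisE N).pow 11))
    have h2 := UpperHalfPlane.mdifferentiable_iff.mp (hDq.mdifferentiable one_pos)
    exact fun z hz => (h1 z hz).div (h2 z hz) (ModularForm.discriminant_ne_zero _)⟩
  have hφd : φH * dH = fH * eH ^ 11 :=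
    Subtype.ext (funext fun x => div_mul_cancel₀ _ (ModularForm.discriminant_ne_zero x))
  -- the weight twelve transformation of numerator and denominator
  have hnum : ∀ γ : SL(2, ℤ), (⇑f * eisE N ^ 11) ∣[(12 : ℤ)] γ =
      (⇑f ∣[(1 : ℤ)] γ) * (eisE N ∣[(1 : ℤ)] γ) ^ 11 := fun γ => by
    rw [show (12 : ℤ) = 1 + ((11 : ℕ) : ℤ) * 1 by norm_num, ModularForm.mul_slash_SL2,
      pow_slash_SL2]
  have hDinv : ∀ γ : SL(2, ℤ),
      ModularForm.discriminant ∣[(12 : ℤ)] γ = ModularForm.discriminant :=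
    fun γ => isLvlOne_discriminant.slash γ
  have hquot : ∀ (γ : SL(2, ℤ)) (x : ℍ), φH.1 (γ • x) =
      ((⇑f ∣[(1 : ℤ)] γ) * (eisE N ∣[(1 : ℤ)] γ) ^ 11) x / ModularForm.discriminant x := by
    intro γ x
    rw [← hnum, ← congrFun (hDinv γ) x, ModularForm.SL_slash_apply, ModularForm.SL_slash_apply,
      mul_div_mul_right _ _ (zpow_ne_zero _ (denom_ne_zero γ x))]
    rfl
  set φ : Mero := algebraMap Hol Mero φH with hφdef
  have hinv : ∀ γ ∈ Gamma1 N, translate γ φ = φ := by
    intro γ hγ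
    rw [hφdef, translate_algebraMap]
    congr 1
    refine Subtype.ext (funext fun x => ?_)
    rw [smul_hol_apply, hquot, eisE_slash N (inv_mem hγ), show ⇑f ∣[(1 : ℤ)] γ⁻¹ = ⇑f from
      SlashInvariantFormClass.slash_action_eq f _ (Subgroup.mem_map_of_mem _ (inv_mem hγ))]
    rfl
  have hcusp : HasFiniteOrderAtCusps N φ := by
    intro g
    refine ⟨g • φH, 1, Eventually.of_forall fun x => by simp, ?_, N, ?_⟩
    · rw [hφdef, translate_algebraMap, map_one, mul_one]
    have hn : IsBoundedAtImInfty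
        ((⇑f ∣[(1 : ℤ)] g⁻¹) * (eisE N ∣[(1 : ℤ)] g⁻¹) ^ 11) := by
      refine BoundedAtFilter.mul (isBoundedAtImInfty_of_isZero (isZeroAtImInfty_cuspForm_slash f _)) ?_
      have := isBoundedAtImInfty_prod (fun _ : ℕ => eisE N ∣[(1 : ℤ)] g⁻¹) (Finset.range 11)
        fun _ _ => isBoundedAtImInfty_eisE_slash N _
      rwa [Finset.prod_const, Finset.card_range] at this
    have hd : IsBoundedAtImInfty fun x : ℍ =>
        Function.Periodic.qParam 1 (x : ℂ) / ModularForm.discriminant x := by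
      have ht := hDq.tendsto one_pos (m := 1) fun n hn => by
        rw [hDdef, HahnSeries.coeff_single_mul, intSeriesC_apply,
          ofPowerSeries_coeff_of_neg _ (by omega), mul_zero]
      have hc : D.coeff 1 ≠ 0 := by
        rw [hDdef, HahnSeries.coeff_single_mul, intSeriesC_apply, one_mul,
          show (1 : ℤ) - 1 = ((0 : ℕ) : ℤ) by norm_num, HahnSeries.ofPowerSeries_apply_coeff]
        have h0 : PowerSeries.coeff 0 ModularCurve.etaProd = 1 := by
          rw [coeff_etaProd_eq 0 le_rfl]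
          simp
        rw [PowerSeries.coeff_map, ModularCurve.dedekindEtaUnit,
          PowerSeries.coeff_zero_eq_constantCoeff_apply, map_pow,
          ← PowerSeries.coeff_zero_eq_constantCoeff_apply, h0]
        simp
      refine ((ht.inv₀ hc).isBigO_one ℝ).congr_left fun x => ?_
      rw [zpow_one]
      field_simp
    refine (BoundedAtFilter.mul hn hd).congr_left fun x => ?_
    rw [Pi.mul_apply, smul_hol_apply, hquot, show ((1 : Hol) : ℍ → ℂ) x = 1 from rfl]
    have hqN : Function.Periodic.qParam (N : ℝ) (x : ℂ) ^ N =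
        Function.Periodic.qParam 1 (x : ℂ) := by
      rw [Function.Periodic.qParam, Function.Periodic.qParam, ← Complex.exp_nat_mul]
      congr 1
      have : (N : ℂ) ≠ 0 := by exact_mod_cast NeZero.ne N
      push_cast
      field_simp
    rw [hqN]
    simp only [div_one]
    ring
  obtain ⟨f0, hf0⟩ := XOne.exists_evalMero1_eq N hinv hcusp
  obtain ⟨a, b, x, y, hb, hax, hby, hab, hxy⟩ := XOne.evalMero1_spec N f0
  have hy : y ≠ 0 := fun e => hb (Subtype.ext ((hby.eq_zero_iff one_pos).2 e))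
  have hkey : (f0 : LaurentSeries ℂ) * D = F * E ^ 11 := by
    rw [hf0, hφdef, ← map_mul] at hab
    have hab' : φH * b = a := IsFractionRing.injective Hol Mero hab
    have : a * dH = fH * eH ^ 11 * b := by rw [← hφd, ← hab']; ring
    have h1 : HasQExp 1 (a * dH : Hol).1 (x * D) := hax.mul hDq
    have h2 : HasQExp 1 (fH * eH ^ 11 * b : Hol).1 (F * E ^ 11 * y) :=
      (hFq.mul (hEq.pow 11)).mul hby
    rw [this] at h1
    have h3 := h1.unique h2 one_pos
    rw [← hxy] at h3
    refine mul_right_cancel₀ hy ?_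
    linear_combination h3
  -- the conjugate element
  set G : LaurentSeries ℂ := coeffMap s F with hGdef
  let f1 : XOne.FL N ℂ := ⟨coeffMap s (f0 : LaurentSeries ℂ),
    coeffMap_mem_laurentBaseChange σ f0.2⟩
  have hkey1 : (f1 : LaurentSeries ℂ) * D = G * E ^ 11 := by
    have := congrArg (coeffMap s) hkey
    rwa [map_mul, hsD, map_mul, map_pow, hsE] at this
  obtain ⟨a1, b1, x1, y1, hb1, hax1, hby1, hab1, hxy1⟩ := XOne.evalMero1_spec N f1
  set A : Hol := a1 * dH with hAdef
  set B : Hol := b1 * eH ^ 11 with hBdef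
  have hAq : HasQExp 1 A.1 (G * (y1 * E ^ 11)) := by
    have : HasQExp 1 A.1 (x1 * D) := hax1.mul hDq
    rwa [← hxy1, mul_right_comm, hkey1, mul_assoc, mul_comm (E ^ 11)] at this
  have hBq : HasQExp 1 B.1 (y1 * E ^ 11) := hby1.mul (hEq.pow 11)
  have hE0 : eH ≠ 0 := fun e => by
    have hz : (E : LaurentSeries ℂ) = 0 := (hEq.eq_zero_iff one_pos).1 (congrArg Subtype.val e)
    have hc := congrArg (fun z : LaurentSeries ℂ => z.coeff ((0 : ℕ) : ℤ)) hz
    simp only [hEdef, HahnSeries.ofPowerSeries_apply_coeff, HahnSeries.coeff_zero,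
      PowerSeries.coeff_map, PowerSeries.coeff_zero_eq_constantCoeff_apply] at hc
    exact eisESeries_constantCoeff_ne_zero hN ((map_eq_zero _).mp hc)
  have hB0 : B ≠ 0 := mul_ne_zero hb1 (pow_ne_zero _ hE0)
  -- the conjugated norm relation
  obtain ⟨d, C, hd, hC0, hClv, hCz, hrel⟩ := exists_norm_relation f
  choose C' hC' hC'q using fun j => exists_conjugate_levelOne s j (hClv j)
  have hCq : ∀ j, HasQExp 1 (C j) (qSer (C j)) := fun j =>
    hasQExp_qSer (hClv j).form one_mem_strictPeriods_SL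
  have hC'q' : ∀ j, HasQExp 1 (C' j) (coeffMap s (qSer (C j))) := fun j => hC'q j _ (hCq j)
  have hC'0 : C' 0 = 1 := by
    refine (hC'q' 0).eq ?_
    have h := hCq 0
    rw [hC0] at h ⊢
    rw [h.unique (HasQExp.one 1) one_pos, map_one]
    exact HasQExp.one 1
  have hC'z : ∀ j, 0 < j → IsZeroAtImInfty (C' j) := fun j hj => by
    refine (hC'q' j).isZeroAtImInfty one_pos fun n hn => ?_
    rw [coeffMap_coeff]
    rw [(hCq j).coeff_zero_eq_zero_of_isZeroAtImInfty one_pos (hCz j hj) hn, map_zero]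
  have hser : ∑ j ∈ Finset.range (d + 1), coeffMap s (qSer (C j)) * (G ^ 12) ^ (d - j) = 0 := by
    have h1 := HasQExp.sum (Finset.range (d + 1))
      (F := fun j => C j * (⇑f ^ 12) ^ (d - j)) (X := fun j => qSer (C j) * (F ^ 12) ^ (d - j))
      (h := 1) fun j _ => (hCq j).mul ((hFq.pow 12).pow (d - j))
    rw [hrel] at h1
    have := congrArg (coeffMap s) (h1.eq_zero_of_eq_zero one_pos)
    simpa [map_sum] using this
  let CH : ℕ → Hol := fun j => ⟨C' j, (hC' j).mdiff⟩
  have hHol : ∑ j ∈ Finset.range (d + 1), CH j * (A ^ 12) ^ (d - j) * (B ^ 12) ^ j = 0 := by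
    refine Subtype.ext ?_
    rw [AddSubmonoidClass.coe_finsetSum]
    have h1 := HasQExp.sum (Finset.range (d + 1))
      (F := fun j => C' j * (A.1 ^ 12) ^ (d - j) * (B.1 ^ 12) ^ j)
      (X := fun j => coeffMap s (qSer (C j)) * ((G * (y1 * E ^ 11)) ^ 12) ^ (d - j) *
        ((y1 * E ^ 11) ^ 12) ^ j) (h := 1)
      fun j _ => ((hC'q' j).mul ((hAq.pow 12).pow (d - j))).mul ((hBq.pow 12).pow j)
    have h2 : ∑ j ∈ Finset.range (d + 1), coeffMap s (qSer (C j)) *
        ((G * (y1 * E ^ 11)) ^ 12) ^ (d - j) * ((y1 * E ^ 11) ^ 12) ^ j = 0 := by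
      rw [← mul_zero (((y1 * E ^ 11) ^ 12) ^ d), ← hser, Finset.mul_sum]
      refine Finset.sum_congr rfl fun j hj => ?_
      rw [Finset.mem_range] at hj
      obtain ⟨i, rfl⟩ : ∃ i, d = j + i := ⟨d - j, by omega⟩
      rw [Nat.add_sub_cancel_left, pow_add, mul_pow, mul_pow]
      ring
    rw [h2] at h1
    exact (h1.eq_zero_iff one_pos).2 rfl
  -- the meromorphic function is holomorphic
  set Q : Mero := algebraMap Hol Mero A / algebraMap Hol Mero B with hQdef
  have hBne : algebraMap Hol Mero B ≠ 0 :=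
    (map_ne_zero_iff _ (IsFractionRing.injective Hol Mero)).2 hB0
  have hQrel : ∑ j ∈ Finset.range (d + 1), algebraMap Hol Mero (CH j) * (Q ^ 12) ^ (d - j) = 0 := by
    have hBp : (algebraMap Hol Mero B ^ 12) ^ d ≠ 0 := pow_ne_zero _ (pow_ne_zero _ hBne)
    refine mul_right_cancel₀ hBp ?_
    have h1 := congrArg (algebraMap Hol Mero) hHol
    simp only [map_sum, map_mul, map_pow, map_zero] at h1
    rw [zero_mul, Finset.sum_mul, ← h1]
    refine Finset.sum_congr rfl fun j hj => ?_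
    rw [Finset.mem_range] at hj
    obtain ⟨i, rfl⟩ : ∃ i, d = j + i := ⟨d - j, by omega⟩
    rw [Nat.add_sub_cancel_left, hQdef, div_pow, div_pow, pow_add]
    field_simp
  obtain ⟨gH, hgH⟩ := exists_algebraMap_eq_of_forall_ordVal_le_one
    (ordVal_le_one_of_relation hd (Subtype.ext hC'0) hQrel)
  have hgB : gH * B = A := by
    apply IsFractionRing.injective Hol Mero
    rw [map_mul, hgH, hQdef, div_mul_cancel₀ _ hBne]
  set g : ℍ → ℂ := gH.1 with hgdef
  -- invariance
  have hgeq : ∀ γ ∈ Gamma1 N, g ∣[(1 : ℤ)] γ = g := by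
    intro γ hγ
    have h1 := XOne.translate_evalMero1 N (inv_mem hγ) f1
    set ψ := XOne.evalMero1 N f1
    have h2 := congrArg (translate γ⁻¹) hab1
    rw [map_mul, h1, translate_algebraMap, translate_algebraMap] at h2
    have h3 : (γ⁻¹ • a1) * b1 = a1 * (γ⁻¹ • b1) := by
      apply IsFractionRing.injective Hol Mero
      rw [map_mul, map_mul, ← h2, ← hab1]
      ring
    let gs : Hol := ⟨g ∣[(1 : ℤ)] γ, by
      rw [mem_hol, ModularForm.SL_slash]; exact gH.2.slash 1 _⟩
    have hz : (gs - gH) * ((γ⁻¹ • b1) * b1 * eH ^ 11) = 0 := by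
      refine Subtype.ext (funext fun z => ?_)
      have e1 := congrArg (fun H : Hol => H.1 (γ • z)) hgB
      have e2 := congrArg (fun H : Hol => H.1 z) hgB
      have e3 := congrArg (fun H : Hol => H.1 z) h3
      have e4 := congrFun (eisE_slash N hγ) z
      have e5 := congrFun (hDinv γ) z
      rw [ModularForm.SL_slash_apply] at e4 e5
      have hden := denom_ne_zero (γ : GL (Fin 2) ℝ) z
      rw [zpow_neg, zpow_one, ← div_eq_mul_inv, div_eq_iff hden] at e4
      rw [zpow_neg, ← div_eq_mul_inv, div_eq_iff (zpow_ne_zero _ hden)] at e5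
      have e12 : denom (γ : GL (Fin 2) ℝ) z ^ (12 : ℤ) = denom (γ : GL (Fin 2) ℝ) z ^ 12 := by
        norm_cast
      simp only [hAdef, hBdef, Subalgebra.coe_mul, Subalgebra.coe_pow, Pi.mul_apply,
        Pi.pow_apply, smul_hol_apply, inv_inv, eH, dH, e4, e5, e12] at e1 e2 e3
      have e1' : g (γ • z) * (b1.1 (γ • z) * eisE N z ^ 11) =
          a1.1 (γ • z) * ModularForm.discriminant z * denom (γ : GL (Fin 2) ℝ) z := by
        refine mul_right_cancel₀ (pow_ne_zero 11 hden) ?_
        linear_combination e1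
      simp only [Subalgebra.coe_mul, Subalgebra.coe_sub, Subalgebra.coe_pow, Subalgebra.coe_zero,
        Pi.mul_apply, Pi.sub_apply, Pi.pow_apply, Pi.zero_apply, smul_hol_apply, inv_inv, gs, eH]
      rw [ModularForm.SL_slash_apply, zpow_neg, zpow_one]
      field_simp
      linear_combination b1.1 z * e1' + ModularForm.discriminant z * denom (γ : GL (Fin 2) ℝ) z * e3
        - b1.1 (γ • z) * denom (γ : GL (Fin 2) ℝ) z * e2
    have hb' : γ⁻¹ • b1 ≠ 0 := by rwa [Ne, smul_eq_zero_iff_eq]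
    have := (mul_eq_zero.mp hz).resolve_right
      (mul_ne_zero (mul_ne_zero hb' hb1) (pow_ne_zero _ hE0))
    exact congrArg Subtype.val (sub_eq_zero.mp this)
  -- behaviour at the cusps
  have hgrel : ∀ (γ : SL(2, ℤ)) (z : ℍ),
      ∑ j ∈ Finset.range (d + 1), C' j z * ((g ∣[(1 : ℤ)] γ) z ^ 12) ^ (d - j) = 0 := by
    intro γ z
    have hh : ∑ j ∈ Finset.range (d + 1), CH j * (gH ^ 12) ^ (d - j) = 0 := by
      apply IsFractionRing.injective Hol Mero
      rw [map_sum, map_zero, ← hQrel, ← hgH]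
      simp only [map_mul, map_pow]
    have h1 := congrArg (fun H : Hol => H.1 (γ • z)) hh
    simp only [AddSubmonoidClass.coe_finsetSum, Finset.sum_apply, Subalgebra.coe_mul,
      Subalgebra.coe_pow, Subalgebra.coe_zero, Pi.mul_apply, Pi.pow_apply, Pi.zero_apply] at h1
    have hden := denom_ne_zero (γ : GL (Fin 2) ℝ) z
    refine mul_left_cancel₀ (pow_ne_zero (12 * d) hden) ?_
    rw [mul_zero, Finset.mul_sum, ← h1]
    refine Finset.sum_congr rfl fun j hj => ?_
    rw [Finset.mem_range] at hj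
    obtain ⟨i, rfl⟩ : ∃ i, d = j + i := ⟨d - j, by omega⟩
    have e : C' j (γ • z) = C' j z * denom (γ : GL (Fin 2) ℝ) z ^ (12 * j) := by
      have h3 := congrFun ((hC' j).slash γ) z
      rw [ModularForm.SL_slash_apply, zpow_neg, ← div_eq_mul_inv,
        div_eq_iff (zpow_ne_zero _ hden)] at h3
      rw [h3, show (12 : ℤ) * (j : ℤ) = ((12 * j : ℕ) : ℤ) by push_cast; ring, zpow_natCast]
    rw [Nat.add_sub_cancel_left, ModularForm.SL_slash_apply, zpow_neg, zpow_one,
      show (CH j).1 (γ • z) = C' j (γ • z) from rfl, e, hgdef, mul_add, pow_add, ← pow_mul,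
      mul_pow, inv_pow, ← pow_mul]
    field_simp
  have hzero : ∀ γ : SL(2, ℤ), IsZeroAtImInfty (g ∣[(1 : ℤ)] γ) := by
    intro γ
    have h12 : Tendsto (fun z => (g ∣[(1 : ℤ)] γ) z ^ 12) atImInfty (𝓝 0) :=
      tendsto_zero_of_relation (c := fun j => C' j) (fun z => by simp [hC'0])
        (fun j hj => hC'z j hj) (hgrel γ)
    show Tendsto _ atImInfty (𝓝 0)
    rw [Metric.tendsto_nhds] at h12 ⊢
    intro e he
    filter_upwards [h12 (e ^ 12) (pow_pos he 12)] with z hz
    rw [dist_zero_right, norm_pow] at hz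
    rw [dist_zero_right]
    exact lt_of_pow_lt_pow_left₀ 12 he.le hz
  let gC : CuspForm (Gamma1 N) 1 :=
    { toFun := g
      slash_action_eq' := by
        rintro _ ⟨γ, hγ, rfl⟩
        exact hgeq γ hγ
      holo' := gH.2
      zero_at_cusps' := fun {c} hc => by
        rw [Subgroup.IsArithmetic.isCusp_iff_isCusp_SL2Z] at hc
        rw [OnePoint.isZeroAt_iff_forall_SL2Z hc]
        exact fun γ _ => hzero γ }
  refine ⟨gC, fun n => ?_⟩
  have h1 : HasQExp 1 (gH * B : Hol).1 (qSer gC * (y1 * E ^ 11)) :=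
    (hasQExp_qSer gC hΓ).mul hBq
  rw [hgB] at h1
  have h2 : qSer gC = G := mul_right_cancel₀ (fun e => hB0 (Subtype.ext
    ((hBq.eq_zero_iff one_pos).2 e))) (h1.unique hAq one_pos)
  have h3 := congrArg (fun z : LaurentSeries ℂ => z.coeff (n : ℤ)) h2
  simp only [hGdef, hFdef, coeffMap_coeff, qSer_coeff] at h3
  exact h3.trans (hs _)

end Fermat.Agent.DeligneSerre
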