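import Fermat.Agent.DeligneSerre.WeightOne.LevelOne
import Mathlib.NumberTheory.ModularForms.CongruenceSubgroups

/-!
# The norm polynomial of `f¹²`

For a cusp form `f` of weight one on `Γ₁(N)` the twelfth powers of its translates are the roots of
a polynomial whose coefficients are level one cusp forms of weight `12 j`.
-/

set_option autoImplicit false

noncomputable section

open UpperHalfPlane CongruenceSubgroup Filter
open scoped MatrixGroups ModularForm Manifold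

namespace Fermat.Agent.DeligneSerre

open Fermat.Agent.Modular (HasQExp)

theorem pow_slash_SL2 {k : ℤ} (h : ℍ → ℂ) (g : SL(2, ℤ)) (n : ℕ) :
    (h ^ n) ∣[(n : ℤ) * k] g = (h ∣[k] g) ^ n := by
  induction n with
  | zero => simpa using ModularForm.is_invariant_one g
  | succ n ih =>
    rw [pow_succ, pow_succ, Nat.cast_succ, add_mul, one_mul, ModularForm.mul_slash_SL2, ih]

theorem prod_slash_SL2' {ι : Type*} {k : ℤ} (G : ι → ℍ → ℂ) (g : SL(2, ℤ)) (t : Finset ι) :
    (∏ i ∈ t, G i) ∣[k * (t.card : ℤ)] g = ∏ i ∈ t, G i ∣[k] g := by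
  classical
  induction t using Finset.induction_on with
  | empty => simpa using ModularForm.is_invariant_one g
  | insert a s ha ih =>
    rw [Finset.prod_insert ha, Finset.prod_insert ha, Finset.card_insert_of_notMem ha, Nat.cast_succ,
      mul_add, mul_one, add_comm (k * (s.card : ℤ)), ModularForm.mul_slash_SL2, ih]

theorem isBoundedAtImInfty_prod {ι : Type*} (G : ι → ℍ → ℂ) (t : Finset ι)
    (h : ∀ i ∈ t, IsBoundedAtImInfty (G i)) : IsBoundedAtImInfty (∏ i ∈ t, G i) :=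
  Finset.prod_induction _ IsBoundedAtImInfty (fun _ _ => BoundedAtFilter.mul)
    (const_boundedAtFilter _ (1 : ℂ)) h

theorem IsZeroAtImInfty.mul_isBoundedAtImInfty {f g : ℍ → ℂ} (hf : IsZeroAtImInfty f)
    (hg : IsBoundedAtImInfty g) : IsZeroAtImInfty (f * g) := by
  have h1 : f =o[atImInfty] (1 : ℍ → ℝ) := (Asymptotics.isLittleO_one_iff ℝ).mpr hf
  have h2 := h1.mul_isBigO hg
  simp only [Pi.one_apply, mul_one] at h2
  exact (Asymptotics.isLittleO_one_iff ℝ).mp h2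

theorem isZeroAtImInfty_sum {ι : Type*} (G : ι → ℍ → ℂ) (t : Finset ι)
    (h : ∀ i ∈ t, IsZeroAtImInfty (G i)) : IsZeroAtImInfty (∑ i ∈ t, G i) :=
  Finset.sum_induction _ IsZeroAtImInfty (fun a b ha hb => by
    have := Tendsto.add (f := a) (g := b) ha hb
    rw [add_zero] at this
    exact this) tendsto_const_nhds h

theorem isBoundedAtImInfty_of_isZero {f : ℍ → ℂ} (h : IsZeroAtImInfty f) :
    IsBoundedAtImInfty f :=
  h.boundedAtFilter

variable {N : ℕ} [NeZero N] (f : CuspForm (Gamma1 N) 1)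

theorem isZeroAtImInfty_cuspForm_slash (g : SL(2, ℤ)) :
    IsZeroAtImInfty (⇑f ∣[(1 : ℤ)] g) := by
  have hc : IsCusp (Matrix.SpecialLinearGroup.mapGL ℝ g • OnePoint.infty)
      (Gamma1 N : Subgroup (GL (Fin 2) ℝ)) := by
    rw [Subgroup.IsArithmetic.isCusp_iff_isCusp_SL2Z, isCusp_SL2Z_iff']
    exact ⟨g, rfl⟩
  exact CuspFormClass.zero_at_cusps f hc (g : GL (Fin 2) ℝ) rfl

/-- The twelfth powers of the translates. -/
def normRoot (q : SL(2, ℤ) ⧸ Gamma1 N) : ℍ → ℂ := (⇑f ^ 12) ∣[(12 : ℤ)] (q.out⁻¹ : SL(2, ℤ))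

theorem cuspForm_pow_slash (g : SL(2, ℤ)) :
    (⇑f ^ 12) ∣[(12 : ℤ)] g = (⇑f ∣[(1 : ℤ)] g) ^ 12 := by
  have := pow_slash_SL2 (k := 1) (⇑f) g 12
  simpa using this

theorem normRoot_slash (q : SL(2, ℤ) ⧸ Gamma1 N) (γ : SL(2, ℤ)) :
    normRoot f q ∣[(12 : ℤ)] γ = normRoot f (γ⁻¹ • q) := by
  have hq : γ⁻¹ • q = QuotientGroup.mk (γ⁻¹ * q.out) := by
    conv_lhs => rw [← QuotientGroup.out_eq' q]
    rfl
  obtain ⟨⟨δ, hδ⟩, h⟩ := QuotientGroup.mk_out_eq_mul (Gamma1 N) (γ⁻¹ * q.out)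
  have hinv : (⇑f ^ 12) ∣[(12 : ℤ)] δ⁻¹ = ⇑f ^ 12 := by
    rw [cuspForm_pow_slash, show ⇑f ∣[(1 : ℤ)] δ⁻¹ = ⇑f from
      SlashInvariantFormClass.slash_action_eq f _ (Subgroup.mem_map_of_mem _ (inv_mem hδ))]
  rw [normRoot, normRoot, hq, h, mul_inv_rev, mul_inv_rev, inv_inv, SlashAction.slash_mul,
    SlashAction.slash_mul]
  rw [show (⇑f ^ 12) ∣[(12 : ℤ)] ((⟨δ, hδ⟩ : Gamma1 N) : SL(2, ℤ))⁻¹ = ⇑f ^ 12 from hinv]

theorem normRoot_one : normRoot f (QuotientGroup.mk 1) = ⇑f ^ 12 := by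
  obtain ⟨⟨δ, hδ⟩, h⟩ := QuotientGroup.mk_out_eq_mul (Gamma1 N) (1 : SL(2, ℤ))
  rw [normRoot, h, one_mul, cuspForm_pow_slash, show ⇑f ∣[(1 : ℤ)] δ⁻¹ = ⇑f from
      SlashInvariantFormClass.slash_action_eq f _ (Subgroup.mem_map_of_mem _ (inv_mem hδ))]

theorem isZeroAtImInfty_normRoot (q : SL(2, ℤ) ⧸ Gamma1 N) :
    IsZeroAtImInfty (normRoot f q) := by
  rw [normRoot, cuspForm_pow_slash, pow_succ]
  have h := isZeroAtImInfty_cuspForm_slash f (q.out⁻¹)
  rw [mul_comm]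
  refine IsZeroAtImInfty.mul_isBoundedAtImInfty h ?_
  exact Finset.prod_const (⇑f ∣[(1 : ℤ)] (q.out⁻¹ : SL(2, ℤ))) (s := Finset.range 11) ▸
    isBoundedAtImInfty_prod (fun _ => ⇑f ∣[(1 : ℤ)] (q.out⁻¹ : SL(2, ℤ))) (Finset.range 11)
      fun _ _ => isBoundedAtImInfty_of_isZero h

theorem mdifferentiable_normRoot (q : SL(2, ℤ) ⧸ Gamma1 N) : MDiff (normRoot f q) := by
  rw [normRoot, ModularForm.SL_slash]
  exact ((CuspFormClass.holo f).pow 12).slash 12 _

/-- The coefficients: level one forms of weight `12 j`, cuspidal for `0 < j`. -/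
theorem exists_norm_relation :
    ∃ (d : ℕ) (C : ℕ → ℍ → ℂ), 0 < d ∧ C 0 = 1 ∧
      (∀ j : ℕ, IsLvlOne (12 * (j : ℤ)) (C j)) ∧ (∀ j : ℕ, 0 < j → IsZeroAtImInfty (C j)) ∧
      ∑ j ∈ Finset.range (d + 1), C j * (⇑f ^ 12) ^ (d - j) = 0 := by
  classical
  haveI : Fintype (SL(2, ℤ) ⧸ Gamma1 N) := Fintype.ofFinite _
  set Q := (Finset.univ : Finset (SL(2, ℤ) ⧸ Gamma1 N)) with hQ
  refine ⟨Q.card, fun j => ∑ t ∈ Q.powersetCard j, ∏ q ∈ t, -normRoot f q, ?_, by simp, fun j => ?_,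
    fun j hj => ?_, ?_⟩
  · exact Finset.card_pos.mpr ⟨QuotientGroup.mk 1, Finset.mem_univ _⟩
  · refine ⟨fun γ => ?_, ?_, ?_⟩
    · rw [SlashAction.sum_slash]
      refine Finset.sum_nbij' (fun t => t.map (MulAction.toPerm (γ⁻¹ : SL(2, ℤ))).toEmbedding)
        (fun t => t.map (MulAction.toPerm γ).toEmbedding) (fun t ht => ?_) (fun t ht => ?_)
        (fun t _ => ?_) (fun t _ => ?_) (fun t ht => ?_)
      · simp only [Finset.mem_powersetCard, hQ, Finset.card_map] at ht ⊢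
        exact ⟨Finset.subset_univ _, ht.2⟩
      · simp only [Finset.mem_powersetCard, hQ, Finset.card_map] at ht ⊢
        exact ⟨Finset.subset_univ _, ht.2⟩
      · rw [Finset.map_map]
        convert Finset.map_refl
        ext q
        simp
      · rw [Finset.map_map]
        convert Finset.map_refl
        ext q
        simp
      · rw [Finset.mem_powersetCard] at ht
        rw [← ht.2, prod_slash_SL2', Finset.prod_map]
        refine Finset.prod_congr rfl fun q _ => ?_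
        rw [SlashAction.neg_slash, normRoot_slash]
        rfl
    · exact MDifferentiable.sum fun t _ =>
        MDifferentiable.prod fun q _ => (mdifferentiable_normRoot f q).neg
    · refine Finset.sum_induction _ IsBoundedAtImInfty (fun _ _ => BoundedAtFilter.add)
        (const_boundedAtFilter _ (0 : ℂ)) fun t _ => isBoundedAtImInfty_prod _ _ fun q _ => ?_
      exact (isBoundedAtImInfty_of_isZero (isZeroAtImInfty_normRoot f q)).neg
  · refine isZeroAtImInfty_sum _ _ fun t ht => ?_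
    rw [Finset.mem_powersetCard] at ht
    obtain ⟨q, hq⟩ := Finset.card_pos.mp (ht.2 ▸ hj)
    rw [← Finset.mul_prod_erase t _ hq]
    refine IsZeroAtImInfty.mul_isBoundedAtImInfty ?_ (isBoundedAtImInfty_prod _ _ fun r _ =>
      (isBoundedAtImInfty_of_isZero (isZeroAtImInfty_normRoot f r)).neg)
    show Tendsto _ atImInfty (nhds 0)
    simpa [Pi.neg_def] using Tendsto.neg (isZeroAtImInfty_normRoot f q)
  · have h0 : ∏ q ∈ Q, (-normRoot f q + ⇑f ^ 12) = 0 :=
      Finset.prod_eq_zero (Finset.mem_univ (QuotientGroup.mk 1)) (by rw [normRoot_one, neg_add_cancel])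
    rw [Finset.prod_add, Finset.sum_powerset] at h0
    refine Eq.trans (Finset.sum_congr rfl fun j _ => ?_) h0
    rw [Finset.sum_mul]
    refine Finset.sum_congr rfl fun t ht => ?_
    rw [Finset.mem_powersetCard] at ht
    rw [Finset.prod_const, Finset.card_sdiff_of_subset ht.1, ht.2]

end Fermat.Agent.DeligneSerre
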