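import Fermat.Agent.DeligneSerre.NebFinite
import Fermat.Agent.DeligneSerre.Interface
import Fermat.Agent.DeligneSerre.HasNebOfEigen
import Fermat.Agent.DeligneSerre.WeightOne.NormPoly

/-!
# Integrality of the coefficients of a weight one form

`f E₄` has weight five, where all coefficients of a form with nebentypus lie in one finitely
generated subgroup of `ℂ`; dividing by the integral series of `E₄` gives the same for `f`.
-/

set_option autoImplicit false

noncomputable section

open UpperHalfPlane CongruenceSubgroup ModularFormClass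
open scoped MatrixGroups ModularForm Manifold

namespace Fermat.Agent.DeligneSerre

open Fermat.Agent.Modular (HasQExp intSeriesC)

variable {N : ℕ} [NeZero N] {ε : DirichletCharacter ℂ N}

/-- `f E₄`, of weight five. -/
def mulE4 (f : CuspForm (Gamma1 N) 1) (hf : HasNeb 1 ε ⇑f) :
    nebSpace N (((3 : ℕ) : ℤ) + 2) ε :=
  have hneb : HasNeb (((3 : ℕ) : ℤ) + 2) ε (⇑f * ⇑ModularForm.E₄) := by
    intro γ hγ
    have a := hf γ hγ
    rw [← ModularForm.SL_slash] at a ⊢
    rw [show (((3 : ℕ) : ℤ) + 2) = 1 + 4 by norm_num, ModularForm.mul_slash_SL2, a,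
      (IsLvlOne.of_modularForm ModularForm.E₄).slash γ, smul_mul_assoc]
  ⟨{  toFun := ⇑f * ⇑ModularForm.E₄
      slash_action_eq' := mem_Gamma1_slash N _ ε hneb
      holo' := (CuspFormClass.holo f).mul (ModularFormClass.holo ModularForm.E₄)
      zero_at_cusps' := fun {c} hc => by
        rw [Subgroup.IsArithmetic.isCusp_iff_isCusp_SL2Z] at hc
        rw [OnePoint.isZeroAt_iff_forall_SL2Z hc]
        intro γ _
        show IsZeroAtImInfty ((⇑f * ⇑ModularForm.E₄) ∣[(((3 : ℕ) : ℤ) + 2)] γ)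
        rw [show (((3 : ℕ) : ℤ) + 2) = 1 + 4 by norm_num, ModularForm.mul_slash_SL2,
          (IsLvlOne.of_modularForm ModularForm.E₄).slash γ]
        exact IsZeroAtImInfty.mul_isBoundedAtImInfty (isZeroAtImInfty_cuspForm_slash f γ)
          (ModularFormClass.bdd_at_infty ModularForm.E₄) }, hneb⟩

/-- All coefficients of a weight one form with nebentypus lie in a finitely generated group. -/
theorem exists_fg_qCoeff_mem_weightOne (f : CuspForm (Gamma1 N) 1) (hf : HasNeb 1 ε ⇑f) :
    ∃ S : Submodule ℤ ℂ, S.FG ∧ ∀ n, qCoeff f n ∈ S := by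
  obtain ⟨S, hS, hmem⟩ := exists_fg_qCoeff_mem N ε 3 (mulE4 f hf)
  refine ⟨S, hS, fun n => ?_⟩
  have hΓ := one_mem_strictPeriods_Gamma1 N
  set F5 : CuspForm (Gamma1 N) (((3 : ℕ) : ℤ) + 2) := (mulE4 f hf : nebSpace N _ ε).1 with hF5
  set e := PowerSeries.map (Int.castRingHom ℂ) ModularCurve.eisenstein4 with he
  have h1 : qExpansion 1 ⇑F5 = qExpansion 1 ⇑f * e := by
    have a : HasQExp 1 (⇑f * ⇑ModularForm.E₄)
        (qSer ⇑f * intSeriesC ModularCurve.eisenstein4) :=
      (hasQExp_qSer f hΓ).mul Fermat.Agent.Modular.hasQExp_eisenstein4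
    have b : HasQExp 1 (⇑f * ⇑ModularForm.E₄) (qSer ⇑F5) := hasQExp_qSer F5 hΓ
    have h := b.unique a one_pos
    rw [qSer, qSer, Fermat.Agent.Modular.intSeriesC_apply, ← map_mul] at h
    exact HahnSeries.ofPowerSeries_injective h
  have hu : IsUnit ModularCurve.eisenstein4 := by
    rw [PowerSeries.isUnit_iff_constantCoeff, ← PowerSeries.coeff_zero_eq_constantCoeff_apply]
    simp [ModularCurve.eisenstein4]
  obtain ⟨u, hu⟩ := hu
  have h2 : qExpansion 1 ⇑f =
      qExpansion 1 ⇑F5 * PowerSeries.map (Int.castRingHom ℂ) (↑u⁻¹ : PowerSeries ℤ) := by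
    rw [h1, mul_assoc, he, ← map_mul, ← hu, Units.mul_inv, map_one, mul_one]
  show (qExpansion 1 ⇑f).coeff n ∈ S
  rw [h2, PowerSeries.coeff_mul]
  refine sum_mem fun x _ => ?_
  rw [PowerSeries.coeff_map, eq_intCast, mul_comm, ← zsmul_eq_mul]
  exact S.smul_mem _ (hmem x.1)

variable {f : CuspForm (Gamma1 N) 1}

theorem isIntegral_of_isWeightOneEigen (hf : IsWeightOneEigen ε f) {p : ℕ} (hp : p.Prime)
    (hpN : ¬ p ∣ N) : IsIntegral ℤ (qCoeff f p) := by
  obtain ⟨S, hS, hmem⟩ := exists_fg_qCoeff_mem_weightOne (ε := ε) f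
    (hasNeb_of_hecke_relations f hf.2)
  set G : Set ℂ := Set.range (fun x : ZMod N × ℕ => ε x.1 * qCoeff f x.2) with hG
  set M := Submodule.span ℤ G with hM
  have hle : M ≤ S * Submodule.span ℤ (Set.range fun a : ZMod N => ε a) := by
    rw [hM, Submodule.span_le]
    rintro _ ⟨⟨a, n⟩, rfl⟩
    show ε a * qCoeff f n ∈ S * _
    rw [Submodule.mul_comm]
    exact Submodule.mul_mem_mul (Submodule.subset_span ⟨a, rfl⟩) (hmem n)
  have hfg : M.FG := Submodule.FG.of_le (hS.mul (Submodule.fg_span (Set.finite_range fun a : ZMod N => ε a))) hle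
  have hne : M ≠ ⊥ := by
    intro h
    have h1 : ε 1 * qCoeff f 1 ∈ M := Submodule.subset_span ⟨(1, 1), rfl⟩
    rw [h, Submodule.mem_bot, map_one, one_mul, hf.1] at h1
    exact one_ne_zero h1
  refine isIntegral_of_smul_mem_submodule M hne hfg _ fun x hx => ?_
  induction hx using Submodule.span_induction with
  | mem x hx =>
    obtain ⟨⟨a, n⟩, rfl⟩ := hx
    show qCoeff f p * (ε a * qCoeff f n) ∈ M
    have hrel := hf.2 p hp hpN n
    rw [mul_left_comm, ← hrel, mul_add]
    refine add_mem (Submodule.subset_span ⟨(a, p * n), rfl⟩) ?_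
    rw [← mul_assoc, ← map_mul]
    split_ifs
    · exact Submodule.subset_span ⟨(a * (p : ZMod N), n / p), rfl⟩
    · rw [mul_zero]; exact zero_mem _
  | zero => rw [smul_zero]; exact zero_mem _
  | add x y _ _ hx hy => rw [smul_add]; exact add_mem hx hy
  | smul z x _ hx => rw [smul_comm]; exact M.smul_mem z hx

end Fermat.Agent.DeligneSerre
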