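import Fermat.Agent.Modular.JFun
import Fermat.Agent.Modular.QExp
import Mathlib.NumberTheory.ModularForms.LevelOne.DimensionFormula
import Mathlib.NumberTheory.ModularForms.CuspFormSubmodule

/-!
# Conjugates of level one modular forms of weight divisible by twelve

Such a form is a polynomial in `E₄³` and `Δ`, so applying a field automorphism of `ℂ` to its
`q`-expansion gives again a modular form.
-/

set_option autoImplicit false

noncomputable section

open UpperHalfPlane ModularForm Filter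
open scoped MatrixGroups ModularForm Manifold

namespace Fermat.Agent.DeligneSerre

open Fermat.Agent.Modular (HasQExp intSeriesC)

/-- The expansion of a form with period one, as a Laurent series. -/
def qSer (f : ℍ → ℂ) : LaurentSeries ℂ := HahnSeries.ofPowerSeries ℤ ℂ (qExpansion 1 f)

theorem hasQExp_qSer {F : Type*} [FunLike F ℍ ℂ] {Γ : Subgroup (GL (Fin 2) ℝ)} {k : ℤ}
    [ModularFormClass F Γ k] (f : F) (hΓ : (1 : ℝ) ∈ Γ.strictPeriods) :
    HasQExp 1 f (qSer f) := by
  haveI : Fact (IsCusp OnePoint.infty Γ) :=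
    ⟨Subgroup.isCusp_of_mem_strictPeriods one_pos hΓ⟩
  refine HasQExp.ofPowerSeries fun τ => ?_
  simpa [smul_eq_mul] using ModularForm.hasSum_qExpansion f one_pos hΓ τ

theorem qSer_coeff (f : ℍ → ℂ) (n : ℕ) : (qSer f).coeff n = (qExpansion 1 f).coeff n :=
  HahnSeries.ofPowerSeries_apply_coeff _ _

theorem qSer_coeff_of_neg (f : ℍ → ℂ) {n : ℤ} (hn : n < 0) : (qSer f).coeff n = 0 :=
  ModularCurve.ofPowerSeries_coeff_of_neg _ hn

theorem coeffMap_intSeriesC (σ : ℂ →+* ℂ) (p : PowerSeries ℤ) :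
    ModularCurve.coeffMap σ (intSeriesC p) = intSeriesC p := by
  ext n
  rw [ModularCurve.coeffMap_coeff]
  rcases lt_or_ge n 0 with h | h
  · rw [Fermat.Agent.Modular.intSeriesC_apply, ModularCurve.ofPowerSeries_coeff_of_neg _ h, map_zero]
  · lift n to ℕ using h
    rw [Fermat.Agent.Modular.intSeriesC_apply, HahnSeries.ofPowerSeries_apply_coeff]
    simp

/-- A modular form of level one, as a bare function. -/
structure IsLvlOne (k : ℤ) (F : ℍ → ℂ) : Prop where
  slash : ∀ γ : SL(2, ℤ), F ∣[k] γ = F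
  mdiff : MDiff F
  bdd : IsBoundedAtImInfty F

variable {k : ℤ} {F G : ℍ → ℂ}

theorem IsLvlOne.of_modularForm (f : ModularForm 𝒮ℒ k) : IsLvlOne k f :=
  ⟨fun γ => f.slash_action_eq' _ ⟨γ, rfl⟩, ModularFormClass.holo f,
    ModularFormClass.bdd_at_infty f⟩

/-- The bundled form. -/
def IsLvlOne.form (h : IsLvlOne k F) : ModularForm 𝒮ℒ k where
  toFun := F
  slash_action_eq' := fun _ ⟨γ, hγ⟩ => hγ ▸ h.slash γ
  holo' := h.mdiff
  bdd_at_cusps' {c} hc := by
    rw [Subgroup.IsArithmetic.isCusp_iff_isCusp_SL2Z] at hc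
    rw [OnePoint.isBoundedAt_iff_forall_SL2Z hc]
    intro γ _
    show IsBoundedAtImInfty (F ∣[k] γ)
    rw [h.slash γ]
    exact h.bdd

theorem IsLvlOne.add (hF : IsLvlOne k F) (hG : IsLvlOne k G) : IsLvlOne k (F + G) :=
  ⟨fun γ => by rw [SlashAction.add_slash, hF.slash γ, hG.slash γ], hF.mdiff.add hG.mdiff,
    hF.bdd.add hG.bdd⟩

theorem IsLvlOne.smul (hF : IsLvlOne k F) (c : ℂ) : IsLvlOne k (c • F) :=
  ⟨fun γ => by rw [ModularForm.SL_smul_slash, hF.slash γ], hF.mdiff.const_smul c,
    hF.bdd.smul c⟩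

theorem IsLvlOne.mul {l : ℤ} (hF : IsLvlOne k F) (hG : IsLvlOne l G) :
    IsLvlOne (k + l) (F * G) :=
  ⟨fun γ => by rw [ModularForm.mul_slash_SL2, hF.slash γ, hG.slash γ], hF.mdiff.mul hG.mdiff,
    hF.bdd.mul hG.bdd⟩

theorem isLvlOne_one : IsLvlOne 0 (1 : ℍ → ℂ) :=
  ⟨fun γ => ModularForm.is_invariant_one γ, mdifferentiable_const, const_boundedAtFilter _ (1 : ℂ)⟩

theorem IsLvlOne.pow (hF : IsLvlOne k F) (n : ℕ) : IsLvlOne (n * k) (F ^ n) := by
  induction n with
  | zero => simpa using isLvlOne_one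
  | succ n ih => simpa [pow_succ, add_mul] using ih.mul hF

theorem isLvlOne_E4_pow (i : ℕ) :
    IsLvlOne (12 * (i : ℤ)) (⇑ModularForm.E₄ ^ (3 * i)) := by
  have h := (IsLvlOne.of_modularForm ModularForm.E₄).pow (3 * i)
  rwa [show ((3 * i : ℕ) : ℤ) * 4 = 12 * (i : ℤ) by push_cast; ring] at h

theorem isLvlOne_discriminant : IsLvlOne 12 (ModularForm.discriminant) :=
  ⟨fun γ => CuspForm.discriminant.slash_action_eq' _ ⟨γ, rfl⟩,
    CuspFormClass.holo CuspForm.discriminant, ModularFormClass.bdd_at_infty CuspForm.discriminant⟩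

/-- Conjugates of level one forms of weight `12 i`. -/
theorem exists_conjugate_levelOne (σ : ℂ →+* ℂ) (i : ℕ) :
    ∀ {F : ℍ → ℂ}, IsLvlOne (12 * (i : ℤ)) F → ∃ G : ℍ → ℂ, IsLvlOne (12 * (i : ℤ)) G ∧
      ∀ x, HasQExp 1 F x → HasQExp 1 G (ModularCurve.coeffMap σ x) := by
  induction i with
  | zero =>
    intro F hF
    simp only [Nat.cast_zero, mul_zero] at hF ⊢
    obtain ⟨c, hc⟩ := ModularFormClass.levelOne_weight_zero_const hF.form
    replace hc : F = Function.const ℍ c := hc
    have h1 := isLvlOne_one.smul (σ c)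
    rw [show σ c • (1 : ℍ → ℂ) = Function.const ℍ (σ c) by funext; simp] at h1
    refine ⟨Function.const ℍ (σ c), h1, fun x hx => ?_⟩
    have := hx.unique (HasQExp.const 1 c |>.congr fun τ => by simp [hc]) one_pos
    rw [this, HahnSeries.C_apply, ModularCurve.coeffMap_single, ← HahnSeries.C_apply]
    exact HasQExp.const 1 (σ c)
  | succ i ih =>
    intro F hF
    set k : ℤ := 12 * ((i + 1 : ℕ) : ℤ) with hk
    set c : ℂ := (qExpansion 1 F).coeff 0 with hc
    have hE := isLvlOne_E4_pow (i + 1)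
    rw [← hk] at hE
    have hD : IsLvlOne k (F + (-c) • ⇑ModularForm.E₄ ^ (3 * (i + 1))) := hF.add (hE.smul (-c))
    set e : LaurentSeries ℂ := intSeriesC (ModularCurve.eisenstein4 ^ (3 * (i + 1))) with he
    have hEq : HasQExp 1 (⇑ModularForm.E₄ ^ (3 * (i + 1))) e := by
      rw [he, map_pow]
      exact Fermat.Agent.Modular.hasQExp_eisenstein4.pow _
    have hFq : HasQExp 1 F (qSer F) := hasQExp_qSer hF.form one_mem_strictPeriods_SL
    have hDq : HasQExp 1 (F + (-c) • ⇑ModularForm.E₄ ^ (3 * (i + 1)))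
        (qSer F + HahnSeries.C (-c) * e) :=
      hFq.add ((hEq.const_mul (-c)).congr fun τ => by simp)
    have hD0 : (qExpansion 1 hD.form).coeff 0 = 0 := by
      rw [← qSer_coeff, (hasQExp_qSer hD.form one_mem_strictPeriods_SL).unique hDq one_pos]
      rw [HahnSeries.coeff_add, qSer_coeff, HahnSeries.C_apply, HahnSeries.coeff_single_mul,
        he, Fermat.Agent.Modular.intSeriesC_apply, sub_zero,
        HahnSeries.ofPowerSeries_apply_coeff,
        PowerSeries.coeff_map]
      have h4 : PowerSeries.coeff 0 (ModularCurve.eisenstein4 ^ (3 * (i + 1))) = 1 := by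
        rw [PowerSeries.coeff_zero_eq_constantCoeff_apply, map_pow,
          ← PowerSeries.coeff_zero_eq_constantCoeff_apply]
        simp [ModularCurve.eisenstein4]
      rw [h4, ← hc]
      simp
    set D' := CuspForm.discriminantEquiv (ModularForm.toCuspForm hD.form hD0)
    have hD' : IsLvlOne (12 * (i : ℤ)) ⇑D' := by
      have h := IsLvlOne.of_modularForm D'
      generalize ⇑D' = H at h ⊢
      rwa [show k - 12 = 12 * (i : ℤ) by rw [hk]; push_cast; ring] at h
    obtain ⟨G', hG', hG'q⟩ := ih hD'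
    refine ⟨σ c • ⇑ModularForm.E₄ ^ (3 * (i + 1)) + ModularForm.discriminant * G', ?_, fun x hx => ?_⟩
    · refine (hE.smul _).add ?_
      have := isLvlOne_discriminant.mul hG'
      rwa [show (12 : ℤ) + 12 * (i : ℤ) = k by rw [hk]; push_cast; ring] at this
    · have hD'q := hasQExp_qSer D' one_mem_strictPeriods_SL
      have hΔ := Fermat.Agent.Modular.hasQExp_discriminant
      have hFdec : HasQExp 1 F (HahnSeries.C c * e +
          HahnSeries.single 1 1 * intSeriesC ModularCurve.dedekindEtaUnit * qSer D') := by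
        refine ((hEq.const_mul c).add (hΔ.mul hD'q)).congr fun τ => ?_
        have h1 : ModularForm.discriminant τ * D' τ = F τ + -c * ModularForm.E₄ τ ^ (3 * (i + 1)) :=
          ModularForm.discriminant_mul_discriminantEquiv_apply _ τ
        simp only [Pi.add_apply, Pi.mul_apply, Pi.pow_apply, h1]
        ring
      rw [hx.unique hFdec one_pos, map_add, map_mul, map_mul, map_mul, HahnSeries.C_apply,
        ModularCurve.coeffMap_single, ModularCurve.coeffMap_single, map_one, he, coeffMap_intSeriesC,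
        coeffMap_intSeriesC, ← HahnSeries.C_apply, ← he]
      refine ((hEq.const_mul (σ c)).add (hΔ.mul (hG'q _ hD'q))).congr fun τ => ?_
      simp

end Fermat.Agent.DeligneSerre
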